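import Fermat.Agent.SharpIsogeny.Level
import Fermat.Agent.Ribet.CurveCriterion.TwoTorsion

/-!
# The least prime with a given trace and residue modulo `l`

The image of the mod `l` representation has order at most `l ⁴`, so a pair `(t, b)` that is the
trace and determinant of an element of the image is `(a_p, p)` modulo `l` at some good prime
`p ≤ A (l ⁴ (1 + 5 log l + L)) ²`. For `l = 2`: an odd `a_p` at `p ≤ A L ²`.
-/

set_option autoImplicit false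
set_option linter.style.haveILetI false

noncomputable section

open Matrix Finset WeierstrassCurve FA.Frob
open FA.CyclicRed (AllFieldsRH badPrimes)
open FA.TraceDist (glLevel)
open scoped Classical WeierstrassCurve.Affine

local notation "Qb" => AlgebraicClosure ℚ
local notation "GQ" => AlgebraicClosure ℚ ≃ₐ[ℚ] AlgebraicClosure ℚ

namespace FA.SharpIsogeny

/-- `1 + log rad Δ`. -/
def curveSize (W : WeierstrassCurve ℤ) : ℝ :=
  1 + Real.log ((∏ p ∈ W.Δ.natAbs.primeFactors, p : ℕ) : ℝ)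

theorem one_le_curveSize (W : WeierstrassCurve ℤ) : 1 ≤ curveSize W :=
  le_add_of_nonneg_right (Real.log_natCast_nonneg _)

theorem sum_bad_le (W : WeierstrassCurve ℤ) :
    ∑ p ∈ badPrimes W, Real.log (p : ℝ) ≤ curveSize W := by
  have h1 : ∑ p ∈ W.Δ.natAbs.primeFactors, Real.log (p : ℝ) =
      Real.log ((∏ p ∈ W.Δ.natAbs.primeFactors, p : ℕ) : ℝ) := by
    rw [Nat.cast_prod, Real.log_prod fun p hp =>
      Nat.cast_ne_zero.2 (Nat.prime_of_mem_primeFactors hp).ne_zero]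
  rw [badPrimes, curveSize, ← h1]
  have h2 : Real.log ((2 : ℕ) : ℝ) ≤ 1 := by
    push_cast
    linarith [Real.log_two_lt_d9]
  by_cases h : 2 ∈ W.Δ.natAbs.primeFactors
  · rw [insert_eq_of_mem h]
    linarith
  · rw [sum_insert h]
    linarith

/-- **A small good prime with trace and residue in `T`.** -/
theorem exists_trace_prime : ∃ A : ℝ, 0 < A ∧
    ∀ (W : WeierstrassCurve ℤ) [(ratCurve W).IsElliptic], W.Δ ≠ 0 → AllFieldsRH →
    ∀ (l : ℕ) [NeZero l], l.Prime → ∀ T : Set (ZMod l × ZMod l),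
    (∃ σ : GQ, ((glLevel W l σ).val.trace, (glLevel W l σ).val.det) ∈ T) →
    ∃ p : ℕ, p.Prime ∧ ¬ (p : ℤ) ∣ W.Δ ∧ p ≠ 2 ∧ p ≠ l ∧
      ((W.apOfModel p : ZMod l), (p : ZMod l)) ∈ T ∧
      (p : ℝ) ≤ A * ((l : ℝ) ^ 4 * (1 + 5 * Real.log l + curveSize W)) ^ 2 := by
  obtain ⟨A, hA, hrep⟩ := exists_rep_prime
  refine ⟨A, hA, fun W _ hΔ hGRH l _ hl T hT => ?_⟩
  obtain ⟨S, hS⟩ : ∃ S, S = insert l (badPrimes W) := ⟨_, rfl⟩
  have hSl : ∀ p : ℕ, p.Prime → p ∉ S → ¬ p ∣ l ∧ p ∉ badPrimes W := fun p hp hpS => by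
    rw [hS, Finset.mem_insert, not_or] at hpS
    exact ⟨fun hd => hpS.1 ((Nat.prime_dvd_prime_iff_eq hp hl).1 hd), hpS.2⟩
  obtain ⟨p, hp, hpS, hle, hpX⟩ := hrep (glLevel W l) FA.TraceDist.isOpen_ker_glLevel hGRH S
    (fun p hp => by
      rw [hS, Finset.mem_insert] at hp
      rcases hp with rfl | hp
      exacts [hl, FA.CyclicRed.prime_of_mem_badPrimes W hp])
    (fun p hp hpS B hB => FA.CyclicRed.inertia_le_ker_glLevel W hp
      (FA.CyclicRed.good_of_not_mem hΔ hp (hSl p hp hpS).2).2 (hSl p hp hpS).1 hB)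
    {g | (g.val.trace, g.val.det) ∈ T} (fun g hg x => by
      show ((x * g * x⁻¹).val.trace, (x * g * x⁻¹).val.det) ∈ T
      rw [Units.val_mul, Units.val_mul, trace_units_conj, det_units_conj]
      exact hg) hT
  obtain ⟨hpl, hb⟩ := hSl p hp hpS
  obtain ⟨h3, hgood⟩ := FA.CyclicRed.good_of_not_mem hΔ hp hb
  obtain ⟨B, hB⟩ := FA.Deform.exists_liesOverPrime hp
  obtain ⟨σ, hσ⟩ := FA.Deform.exists_isFrobeniusAt hp hB
  obtain ⟨htr, hdet⟩ := FA.TraceDist.repLevel_frobenius (W := W) (N := l) hp hpl hgood hB hσ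
  refine ⟨p, hp, hgood, by omega, fun e => hpl (e ▸ dvd_rfl), ?_, hle.trans ?_⟩
  · rw [← htr, ← hdet]
    exact hpX B hB σ hσ
  obtain ⟨n, hn⟩ : ∃ n, n = Nat.card (glLevel W l).range := ⟨_, rfl⟩
  rw [← hn, repScale]
  have hn4 : n ≤ l ^ 4 := hn ▸ (Subgroup.card_le_card_group _).trans
    (FA.CyclicRed.natCard_gl_le l)
  have hnl : (n : ℝ) ≤ (l : ℝ) ^ 4 := by exact_mod_cast hn4
  have hn0 : 0 < n := hn ▸ Nat.card_pos
  have hlogn : Real.log n ≤ 4 * Real.log l := by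
    refine (Real.log_le_log (Nat.cast_pos.2 hn0) hnl).trans (le_of_eq ?_)
    rw [Real.log_pow]
    norm_num
  have hT' : ∑ q ∈ S, Real.log (q : ℝ) ≤ Real.log l + curveSize W := by
    have := sum_bad_le W
    rw [hS]
    by_cases h : l ∈ badPrimes W
    · rw [insert_eq_of_mem h]
      linarith [Real.log_natCast_nonneg l]
    · rw [sum_insert h]
      linarith
  have h0 : 0 ≤ 1 + Real.log n + ∑ q ∈ S, Real.log (q : ℝ) := by
    linarith [Real.log_natCast_nonneg n,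
      sum_nonneg (s := S) (f := fun q : ℕ => Real.log q) fun q _ => Real.log_natCast_nonneg q]
  exact mul_le_mul_of_nonneg_left (pow_le_pow_left₀ (mul_nonneg (Nat.cast_nonneg n) h0)
    (mul_le_mul hnl (by linarith) h0 (by positivity)) 2) hA.le

/-- **The least prime with an odd trace.** -/
theorem exists_odd_trace_le : ∃ A : ℝ, 0 < A ∧ ∀ W : WeierstrassCurve ℤ, W.Δ ≠ 0 → AllFieldsRH →
    W.ModRepIsIrreducible 2 → ∃ p : ℕ, p.Prime ∧ ¬ (p : ℤ) ∣ W.Δ ∧ p ≠ 2 ∧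
      ¬ (2 : ℤ) ∣ W.apOfModel p ∧ (p : ℝ) ≤ A * curveSize W ^ 2 := by
  obtain ⟨A, hA, h⟩ := exists_trace_prime
  refine ⟨A * 96 ^ 2, by positivity, fun W hΔ hGRH hirr => ?_⟩
  haveI := ratCurve_isElliptic_of_Δ hΔ
  obtain ⟨l, hl, hlM, hodd⟩ : ∃ q : ℕ, q.Prime ∧ ¬ q ∣ 2 * W.Δ.natAbs ∧
      ¬ (2 : ℤ) ∣ (q : ℤ) + 1 - W.apOfModel q := by
    by_contra hcon
    exact FA.CurveCriterion.reducible_two_of_even hΔ
      (mul_ne_zero two_ne_zero (Int.natAbs_ne_zero.2 hΔ))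
      (fun q hq hq2 => by_contra fun h2 => hcon ⟨q, hq, hq2, h2⟩) hirr
  have hl2 : l ≠ 2 := fun e => hlM (by rw [e]; exact dvd_mul_right 2 _)
  have hgood : W.IsGoodPrimeFor l := fun hd => hlM ((Int.natCast_dvd.1 hd).mul_left _)
  have hlodd : l % 2 = 1 := hl.eq_two_or_odd.resolve_left hl2
  have ha : ¬ (2 : ℤ) ∣ W.apOfModel l := fun h2 => hodd (dvd_sub (by omega) h2)
  obtain ⟨B, hB⟩ := FA.Deform.exists_liesOverPrime hl
  obtain ⟨σ, hσ⟩ := FA.Deform.exists_isFrobeniusAt hl hB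
  obtain ⟨htr, -⟩ := FA.TraceDist.repLevel_frobenius (W := W) (N := 2) hl
    (fun hd => hl2 ((Nat.prime_dvd_prime_iff_eq hl Nat.prime_two).1 hd)) hgood hB hσ
  obtain ⟨p, hp, hpd, hp2, -, hpT, hle⟩ := h W hΔ hGRH 2 Nat.prime_two {x | x.1 ≠ 0}
    ⟨σ, fun h0 => ha ((ZMod.intCast_zmod_eq_zero_iff_dvd _ 2).1 (htr.symm.trans h0))⟩
  refine ⟨p, hp, hpd, hp2, fun h2 => hpT ((ZMod.intCast_zmod_eq_zero_iff_dvd _ 2).2 h2),
    hle.trans ?_⟩
  have h1 := one_le_curveSize W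
  push_cast
  rw [mul_assoc]
  refine mul_le_mul_of_nonneg_left ?_ hA.le
  rw [← mul_pow]
  refine pow_le_pow_left₀ (mul_nonneg (by norm_num)
    (by linarith [Real.log_nonneg one_le_two])) ?_ 2
  linarith [Real.log_two_lt_d9]

/-- **Every pair for a curve with full image.** -/
theorem exists_trace_det_prime : ∃ A : ℝ, 0 < A ∧ ∀ W : WeierstrassCurve ℤ, W.Δ ≠ 0 → AllFieldsRH →
    ∀ l : ℕ, l.Prime → (∀ φ : Submodule.torsionBy ℤ ((ratCurve W)⁄Qb).Point (l : ℤ) ≃+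
      Submodule.torsionBy ℤ ((ratCurve W)⁄Qb).Point (l : ℤ),
      ∃ σ : GQ, ∀ x, σ • x.1 = (φ x).1) →
    ∀ (t : ℤ) (b : ℕ), ¬ l ∣ b →
    ∃ p : ℕ, p.Prime ∧ ¬ (p : ℤ) ∣ W.Δ ∧ (l : ℤ) ∣ W.apOfModel p - t ∧ p ≡ b [MOD l] ∧
      (p : ℝ) ≤ A * ((l : ℝ) ^ 4 * (1 + 5 * Real.log l + curveSize W)) ^ 2 := by
  obtain ⟨A, hA, h⟩ := exists_trace_prime
  refine ⟨A, hA, fun W hΔ hGRH l hl hsurj t b hb => ?_⟩
  haveI := ratCurve_isElliptic_of_Δ hΔ
  haveI : NeZero l := ⟨hl.ne_zero⟩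
  haveI : Fact l.Prime := ⟨hl⟩
  have hb0 : (b : ZMod l) ≠ 0 := fun e => hb ((ZMod.natCast_eq_zero_iff _ _).1 e)
  obtain ⟨g, hg⟩ : ∃ g : GL (Fin 2) (ZMod l), g.val = !![(t : ZMod l), -(b : ZMod l); 1, 0] :=
    ⟨Matrix.GeneralLinearGroup.mkOfDetNeZero _ (by simpa [Matrix.det_fin_two] using hb0), rfl⟩
  obtain ⟨σ, hσ⟩ := FA.TraceDist.glLevel_surjective hsurj g
  obtain ⟨p, hp, hpd, -, -, hpT, hle⟩ := h W hΔ hGRH l hl {((t : ZMod l), (b : ZMod l))}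
    ⟨σ, by rw [hσ, hg]; simp [trace_fin_two, Matrix.det_fin_two]⟩
  rw [Set.mem_singleton_iff, Prod.mk.injEq] at hpT
  refine ⟨p, hp, hpd, ?_, (ZMod.natCast_eq_natCast_iff _ _ _).1 hpT.2, hle⟩
  rw [← ZMod.intCast_zmod_eq_zero_iff_dvd, Int.cast_sub, hpT.1, sub_self]

end FA.SharpIsogeny

end
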