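import Fermat.Agent.SharpIsogeny.Level

/-!
# The least prime with different traces, with Serre's exponents

The least good prime `p₀` with different traces has an auxiliary `l = O (1 + log p₀)` that does not
divide their difference, and `p₀ ≤ A (l ⁶ (1 + 7 log l + L)) ²`, so `l = O (1 + log L)` and
`p₀ = O (L ² (1 + log L) ¹²)`.
-/

set_option autoImplicit false
set_option linter.style.haveILetI false

noncomputable section

open WeierstrassCurve FA.Frob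
open FA.CyclicRed (AllFieldsRH badPrimes)
open FA.EffIsogeny (Differs exists_small_prime_not_dvd abs_apOfModel_le)
open scoped Classical

namespace FA.SharpIsogeny

/-- `l ≤ a + b log l` bounds `l` by the size of `a`. -/
theorem le_of_le_add_log {l a b : ℝ} (hl : 0 < l) (hb : 0 ≤ b) (h : l ≤ a + b * Real.log l) :
    l ≤ 2 * a + 4 * b ^ 2 := by
  obtain ⟨s, hs⟩ : ∃ s, s = √l := ⟨_, rfl⟩
  have hs2 : s ^ 2 = l := hs ▸ Real.sq_sqrt hl.le
  have hs0 : 0 < s := hs ▸ Real.sqrt_pos.2 hl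
  have h1 : Real.log l ≤ 2 * s := by
    rw [← hs2, Real.log_pow]
    push_cast
    linarith [Real.log_le_sub_one_of_pos hs0]
  have h2 := h.trans (add_le_add le_rfl (mul_le_mul_of_nonneg_left h1 hb))
  have h3 := sq_nonneg (s - 2 * b)
  linarith [show (s - 2 * b) ^ 2 = s ^ 2 - 4 * (b * s) + 4 * b ^ 2 by ring]

/-- **The auxiliary prime is `O (1 + log L)`.** -/
theorem exists_aux_le {A K : ℝ} (hA : 0 < A) (hK : 0 ≤ K) : ∃ C : ℝ, 1 ≤ C ∧ ∀ p l L : ℝ,
    1 ≤ p → 1 ≤ l → 1 ≤ L → p ≤ A * (l ^ 6 * (1 + 7 * Real.log l + L)) ^ 2 →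
    l ≤ K * (1 + 6 * Real.log p) → l ≤ C * (1 + Real.log L) := by
  obtain ⟨a, ha⟩ : ∃ a, a = 1 + 6 * Real.log (81 * A + 1) := ⟨_, rfl⟩
  have hlA : 0 ≤ Real.log (81 * A + 1) := Real.log_nonneg (by linarith)
  have ha1 : 1 ≤ a := by linarith
  refine ⟨2 * (K * (a + 12)) + 4 * (84 * K) ^ 2 + 1, by
    have := mul_nonneg hK (show 0 ≤ a + 12 by linarith)
    linarith [sq_nonneg (84 * K)], fun p l L hp hl hL hle hlK => ?_⟩
  have hll : 0 ≤ Real.log l := Real.log_nonneg hl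
  have hlL : 0 ≤ Real.log L := Real.log_nonneg hL
  have h1 : 1 + 7 * Real.log l + L ≤ 9 * (l * L) := by
    have := Real.log_le_sub_one_of_pos (show 0 < l by linarith)
    have := le_mul_of_one_le_right (show 0 ≤ l by linarith) hL
    have := le_mul_of_one_le_left (show 0 ≤ L by linarith) hl
    linarith
  have h2 : p ≤ (81 * A + 1) * (l ^ 14 * L ^ 2) := by
    refine hle.trans ?_
    have h3 := mul_le_mul_of_nonneg_left (pow_le_pow_left₀ (by positivity)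
      (mul_le_mul_of_nonneg_left h1 (show 0 ≤ l ^ 6 by positivity)) 2) hA.le
    have : 0 ≤ l ^ 14 * L ^ 2 := by positivity
    linarith [show A * (l ^ 6 * (9 * (l * L))) ^ 2 = 81 * A * (l ^ 14 * L ^ 2) by ring]
  have h4 : Real.log p ≤ Real.log (81 * A + 1) + 14 * Real.log l + 2 * Real.log L := by
    refine (Real.log_le_log (by linarith) h2).trans (le_of_eq ?_)
    rw [Real.log_mul (by positivity) (by positivity), Real.log_mul (by positivity) (by positivity),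
      Real.log_pow, Real.log_pow]
    push_cast
    ring
  have h5 : l ≤ K * (a + 12) * (1 + Real.log L) + 84 * K * Real.log l := by
    refine hlK.trans ?_
    have h6 := mul_le_mul_of_nonneg_left
      (show 1 + 6 * Real.log p ≤ (a + 12 * Real.log L) + 84 * Real.log l by linarith) hK
    have := mul_nonneg hK (mul_nonneg (show 0 ≤ a by linarith) hlL)
    have := mul_nonneg hK (show (0 : ℝ) ≤ 12 by norm_num)
    linarith
  refine (le_of_le_add_log (by linarith) (by positivity) h5).trans ?_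
  have := mul_nonneg (sq_nonneg (84 * K)) hlL
  linarith

/-- **Serre's effective isogeny theorem.** -/
theorem exists_differs_le : ∃ B : ℝ, 0 < B ∧ ∀ W W' : WeierstrassCurve ℤ, W.Δ ≠ 0 → W'.Δ ≠ 0 →
    AllFieldsRH →
    (∃ p : ℕ, p.Prime ∧ ¬ (p : ℤ) ∣ W.Δ ∧ ¬ (p : ℤ) ∣ W'.Δ ∧ W.apOfModel p ≠ W'.apOfModel p) →
    ∃ p : ℕ, p.Prime ∧ ¬ (p : ℤ) ∣ W.Δ ∧ ¬ (p : ℤ) ∣ W'.Δ ∧ W.apOfModel p ≠ W'.apOfModel p ∧
      (p : ℝ) ≤ B * (radSize W W' ^ 2 * (1 + Real.log (radSize W W')) ^ 12) := by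
  obtain ⟨K, hK, hsmall⟩ := exists_small_prime_not_dvd
  obtain ⟨A, hA, hlevel⟩ := exists_differs_level
  obtain ⟨C, hC, haux⟩ := exists_aux_le hA hK
  refine ⟨A * (C ^ 6 * (9 * C)) ^ 2 + 2, by positivity, fun W W' hΔ hΔ' hGRH hex => ?_⟩
  haveI := ratCurve_isElliptic_of_Δ hΔ
  haveI := ratCurve_isElliptic_of_Δ hΔ'
  obtain ⟨L, hL⟩ : ∃ L, L = radSize W W' := ⟨_, rfl⟩
  rw [← hL]
  have hL1 : 1 ≤ L := hL ▸ one_le_radSize W W'
  have hlL : 0 ≤ Real.log L := Real.log_nonneg hL1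
  have hG : 1 ≤ L ^ 2 * (1 + Real.log L) ^ 12 := one_le_mul_of_one_le_of_one_le
    (one_le_pow₀ hL1) (one_le_pow₀ (by linarith))
  have hB0 : 0 ≤ A * (C ^ 6 * (9 * C)) ^ 2 := by positivity
  by_cases hd : ∃ p, Differs W W' p
  swap
  · obtain ⟨p, hp, h1, h2, h3⟩ := hex
    have hp2 : p = 2 := by
      by_contra hne
      refine hd ⟨p, hp, ?_, h3⟩
      rw [FA.CyclicRed.badPrimes, FA.CyclicRed.badPrimes, Finset.mem_union, Finset.mem_insert,
        Finset.mem_insert]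
      rintro ((h | h) | (h | h))
      exacts [hne h, h1 (Int.natCast_dvd.2 (Nat.dvd_of_mem_primeFactors h)), hne h,
        h2 (Int.natCast_dvd.2 (Nat.dvd_of_mem_primeFactors h))]
    refine ⟨p, hp, h1, h2, h3, ?_⟩
    rw [hp2]
    push_cast
    exact le_trans (by linarith) (le_mul_of_one_le_right (by linarith) hG)
  obtain ⟨hp, hbad, hne⟩ := Nat.find_spec hd
  obtain ⟨p₀, hp₀⟩ : ∃ p₀, p₀ = Nat.find hd := ⟨_, rfl⟩
  rw [← hp₀] at hp hbad hne
  have hb := hbad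
  rw [Finset.mem_union, not_or] at hb
  refine ⟨p₀, hp, (FA.CyclicRed.good_of_not_mem hΔ hp hb.1).2,
    (FA.CyclicRed.good_of_not_mem hΔ' hp hb.2).2, hne, ?_⟩
  obtain ⟨d, hd0⟩ : ∃ d, d = (W.apOfModel p₀ - W'.apOfModel p₀).natAbs := ⟨_, rfl⟩
  have hd1 : d ≠ 0 := hd0 ▸ Int.natAbs_ne_zero.2 (sub_ne_zero.2 hne)
  obtain ⟨l, hl, hldvd, hlK⟩ := hsmall (d * p₀) (mul_ne_zero hd1 hp.ne_zero)
  have hlp : l ≠ p₀ := fun e => hldvd (e ▸ dvd_mul_left p₀ d)
  have hnel : (W.apOfModel p₀ : ZMod l) ≠ (W'.apOfModel p₀ : ZMod l) := fun e => hldvd (by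
    rw [hd0]
    refine Dvd.dvd.mul_right (Int.natCast_dvd.1 ?_) _
    rw [← ZMod.intCast_zmod_eq_zero_iff_dvd, Int.cast_sub, e, sub_self])
  obtain ⟨p, hpd, hpl⟩ := hlevel W W' hΔ hΔ' hGRH p₀ ⟨hp, hbad, hne⟩ l hl hlp hnel
  have hp0p : (p₀ : ℝ) ≤ p := Nat.cast_le.2 (hp₀ ▸ Nat.find_min' hd hpd)
  rw [← hL] at hpl
  have hl1 : (1 : ℝ) ≤ l := Nat.one_le_cast.2 hl.one_le
  have hp1 : (1 : ℝ) ≤ p₀ := Nat.one_le_cast.2 hp.one_le
  have hdp : d * p₀ ≤ p₀ ^ 6 := by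
    have h1 := (Int.natAbs_sub_le (W.apOfModel p₀) (W'.apOfModel p₀)).trans
      (Nat.add_le_add (abs_apOfModel_le W hp) (abs_apOfModel_le W' hp))
    rw [← hd0] at h1
    refine (Nat.mul_le_mul_right p₀ h1).trans ?_
    have h2 : 6 ≤ p₀ ^ 3 := le_trans (by norm_num) (Nat.pow_le_pow_left hp.two_le 3)
    calc (3 * p₀ ^ 2 + 3 * p₀ ^ 2) * p₀ = 6 * p₀ ^ 3 := by ring
      _ ≤ p₀ ^ 3 * p₀ ^ 3 := Nat.mul_le_mul_right _ h2
      _ = p₀ ^ 6 := by ring
  have hlogd : Real.log ((d * p₀ : ℕ) : ℝ) ≤ 6 * Real.log p₀ := by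
    refine (Real.log_le_log (Nat.cast_pos.2 (Nat.pos_of_ne_zero (mul_ne_zero hd1 hp.ne_zero)))
      (Nat.cast_le.2 hdp)).trans (le_of_eq ?_)
    rw [Nat.cast_pow, Real.log_pow]
    norm_num
  have hlC : (l : ℝ) ≤ C * (1 + Real.log L) := haux p₀ l L hp1 hl1 hL1 (hp0p.trans hpl)
    (hlK.trans (mul_le_mul_of_nonneg_left (by linarith) hK))
  have hsum : 1 + 7 * Real.log l + L ≤ 9 * C * L := by
    have := mul_le_mul_of_nonneg_left
      (show 1 + Real.log L ≤ L by linarith [Real.log_le_sub_one_of_pos (show 0 < L by linarith)])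
      (show 0 ≤ C by linarith)
    have := le_mul_of_one_le_left (show 0 ≤ L by linarith) hC
    linarith [Real.log_le_sub_one_of_pos (show (0 : ℝ) < l by linarith)]
  have hfin : A * ((l : ℝ) ^ 6 * (1 + 7 * Real.log l + L)) ^ 2 ≤
      A * ((C * (1 + Real.log L)) ^ 6 * (9 * C * L)) ^ 2 :=
    mul_le_mul_of_nonneg_left (pow_le_pow_left₀ (mul_nonneg (by positivity)
      (by linarith [Real.log_nonneg hl1])) (mul_le_mul (pow_le_pow_left₀ (by linarith) hlC 6) hsum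
      (by linarith [Real.log_nonneg hl1]) (by positivity)) 2) hA.le
  linarith [show A * ((C * (1 + Real.log L)) ^ 6 * (9 * C * L)) ^ 2 =
    A * (C ^ 6 * (9 * C)) ^ 2 * (L ^ 2 * (1 + Real.log L) ^ 12) by ring]

end FA.SharpIsogeny

end
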