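import Fermat.Agent.SharpIsogeny.Rep
import Fermat.Agent.EffectiveIsogeny.Bound
import Fermat.Agent.Independence.Family

/-!
# The pair of mod `l` representations modulo common scalars

For two curves the images `(g, g')` have `det g = det g'`, and `tr g ≠ tr g'` is unchanged by a
common scalar. The pairs with equal determinants modulo common scalars number
`(l (l² - 1))² ≤ l ⁶`, so two traces that differ modulo `l` differ at a prime
`p ≤ A (l ⁶ (1 + 7 log l + L)) ²`, `L` the logarithm of the primes of bad reduction.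
-/

set_option autoImplicit false
set_option linter.style.haveILetI false

noncomputable section

open Matrix Finset WeierstrassCurve FA.Frob
open FA.CyclicRed (AllFieldsRH badPrimes)
open FA.EffIsogeny (Differs)
open FA.TraceDist (glLevel)
open scoped Classical WeierstrassCurve.Affine

local notation "Qb" => AlgebraicClosure ℚ
local notation "GQ" => AlgebraicClosure ℚ ≃ₐ[ℚ] AlgebraicClosure ℚ

namespace FA.SharpIsogeny

/-- `1 + log rad (Δ Δ')`. -/
def radSize (W W' : WeierstrassCurve ℤ) : ℝ :=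
  1 + Real.log ((∏ p ∈ (W.Δ * W'.Δ).natAbs.primeFactors, p : ℕ) : ℝ)

theorem one_le_radSize (W W' : WeierstrassCurve ℤ) : 1 ≤ radSize W W' :=
  le_add_of_nonneg_right (Real.log_natCast_nonneg _)

theorem sum_bad_union_le {W W' : WeierstrassCurve ℤ} (hΔ : W.Δ ≠ 0) (hΔ' : W'.Δ ≠ 0) :
    ∑ p ∈ badPrimes W ∪ badPrimes W', Real.log (p : ℝ) ≤ radSize W W' := by
  have hu : badPrimes W ∪ badPrimes W' = insert 2 (W.Δ * W'.Δ).natAbs.primeFactors := by
    rw [Int.natAbs_mul, Nat.primeFactors_mul (Int.natAbs_ne_zero.2 hΔ)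
      (Int.natAbs_ne_zero.2 hΔ'), badPrimes, badPrimes]
    ext p
    simp only [mem_union, Finset.mem_insert]
    tauto
  have h1 : ∑ p ∈ (W.Δ * W'.Δ).natAbs.primeFactors, Real.log (p : ℝ) =
      Real.log ((∏ p ∈ (W.Δ * W'.Δ).natAbs.primeFactors, p : ℕ) : ℝ) := by
    rw [Nat.cast_prod, Real.log_prod fun p hp =>
      Nat.cast_ne_zero.2 (Nat.prime_of_mem_primeFactors hp).ne_zero]
  rw [hu, radSize, ← h1]
  have h2 : Real.log ((2 : ℕ) : ℝ) ≤ 1 := by
    push_cast
    linarith [Real.log_two_lt_d9]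
  by_cases h : 2 ∈ (W.Δ * W'.Δ).natAbs.primeFactors
  · rw [insert_eq_of_mem h]
    linarith
  · rw [sum_insert h]
    linarith

variable (l : ℕ)

/-- Pairs of invertible matrices modulo `l`. -/
abbrev PairGroup := GL (Fin 2) (ZMod l) × GL (Fin 2) (ZMod l)

/-- A scalar in both places. -/
def scalarPair : (ZMod l)ˣ →* PairGroup l :=
  (Units.map (Matrix.scalar (Fin 2)).toMonoidHom).prod
    (Units.map (Matrix.scalar (Fin 2)).toMonoidHom)

instance scalarPair_range_normal : (scalarPair l).range.Normal := by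
  refine ⟨fun n hn g => ?_⟩
  obtain ⟨c, rfl⟩ := hn
  have h : ∀ x : GL (Fin 2) (ZMod l),
      x * Units.map (Matrix.scalar (Fin 2)).toMonoidHom c =
        Units.map (Matrix.scalar (Fin 2)).toMonoidHom c * x := fun x =>
    Units.ext ((Matrix.scalar_commute (c : ZMod l) (fun r => Commute.all _ r)
      (x : Matrix (Fin 2) (Fin 2) (ZMod l))).eq.symm :)
  have h2 : g * scalarPair l c = scalarPair l c * g := Prod.ext (h g.1) (h g.2)
  rw [h2, mul_inv_cancel_right]
  exact ⟨c, rfl⟩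

/-- The ratio of the determinants. -/
def detRatio : PairGroup l →* (ZMod l)ˣ :=
  (Matrix.GeneralLinearGroup.det.comp (MonoidHom.fst _ _)) /
    (Matrix.GeneralLinearGroup.det.comp (MonoidHom.snd _ _))

theorem scalarPair_le : (scalarPair l).range ≤ (detRatio l).ker := by
  rintro _ ⟨c, rfl⟩
  exact MonoidHom.mem_ker.2 (div_self' _)

variable {l}

theorem trace_mul_scalar (M : Matrix (Fin 2) (Fin 2) (ZMod l)) (c : ZMod l) :
    (M * Matrix.scalar (Fin 2) c).trace = M.trace * c := by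
  rw [Matrix.scalar_apply, trace_fin_two, trace_fin_two, mul_diagonal, mul_diagonal, add_mul]

/-- **The group has order at most `l ⁶`.** -/
theorem natCard_map_ker_le (hl : l.Prime) :
    Nat.card ((detRatio l).ker.map (QuotientGroup.mk' (scalarPair l).range)) ≤ l ^ 6 := by
  haveI : Fact l.Prime := ⟨hl⟩
  obtain ⟨Z, hZ⟩ : ∃ Z, Z = (scalarPair l).range := ⟨_, rfl⟩
  obtain ⟨φ, hφ⟩ : ∃ φ, φ = (QuotientGroup.mk' (scalarPair l).range).comp
      (detRatio l).ker.subtype := ⟨_, rfl⟩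
  have hrange : φ.range = (detRatio l).ker.map (QuotientGroup.mk' (scalarPair l).range) := by
    rw [hφ, MonoidHom.range_comp, Subgroup.range_subtype]
  have hker : φ.ker = (scalarPair l).range.subgroupOf (detRatio l).ker := by
    rw [hφ, ← MonoidHom.comap_ker, QuotientGroup.ker_mk']
    rfl
  have hinj : Function.Injective (scalarPair l) := fun a b h => Units.ext
    (Matrix.scalar_inj.1
      (congrArg (fun g : PairGroup l => (g.1 : Matrix (Fin 2) (Fin 2) (ZMod l))) h))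
  have hsurj : Function.Surjective (detRatio l) := fun u => by
    refine ⟨(Matrix.GeneralLinearGroup.mkOfDetNeZero !![(u : ZMod l), 0; 0, 1] (by simp), 1),
      Units.ext ?_⟩
    simp [detRatio, Matrix.det_fin_two]
  have e1 := φ.ker.card_mul_index
  rw [Subgroup.index_ker, hrange, hker,
    Nat.card_congr (Subgroup.subgroupOfEquivOfLe (scalarPair_le l)).toEquiv,
    ← Nat.card_congr (MonoidHom.ofInjective hinj).toEquiv, Nat.card_eq_fintype_card,
    ZMod.card_units] at e1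
  have e2 := (detRatio l).ker.card_mul_index
  rw [Subgroup.index_ker, MonoidHom.range_eq_top.2 hsurj, Subgroup.card_top, ← e1,
    Nat.card_prod, Matrix.card_GL_field, Fin.prod_univ_two, ZMod.card, Nat.card_eq_fintype_card
      (α := (ZMod l)ˣ), ZMod.card_units] at e2
  obtain ⟨m, hm⟩ : ∃ m,
      m = Nat.card ((detRatio l).ker.map (QuotientGroup.mk' (scalarPair l).range)) := ⟨_, rfl⟩
  rw [← hm] at e2 ⊢
  obtain ⟨k, rfl⟩ : ∃ k, l = k + 1 := ⟨l - 1, by have := hl.two_le; omega⟩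
  have hk : 0 < k := by have := hl.two_le; omega
  have h3 : (k + 1) ^ 2 - (k + 1) ^ 0 = k * (k + 2) := by
    rw [pow_zero, show (k + 1) ^ 2 = k * (k + 2) + 1 by ring, Nat.add_sub_cancel]
  have h4 : (k + 1) ^ 2 - (k + 1) ^ 1 = k * (k + 1) := by
    rw [pow_one, show (k + 1) ^ 2 = k * (k + 1) + (k + 1) by ring, Nat.add_sub_cancel]
  simp only [Fin.val_zero, Fin.val_one, h3, h4, Nat.add_sub_cancel] at e2
  have h5 : m = (k * (k + 2) * (k + 1)) ^ 2 := by
    refine Nat.eq_of_mul_eq_mul_left (mul_pos hk hk) ?_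
    calc k * k * m = k * m * k := by ring
      _ = _ := e2
      _ = _ := by ring
  rw [h5, show (k + 1) ^ 6 = ((k + 1) ^ 3) ^ 2 by ring]
  exact Nat.pow_le_pow_left (by nlinarith) 2

/-- **The least prime with traces different modulo `l`.** -/
theorem exists_differs_level : ∃ A : ℝ, 0 < A ∧
    ∀ (W W' : WeierstrassCurve ℤ) [(ratCurve W).IsElliptic] [(ratCurve W').IsElliptic],
    W.Δ ≠ 0 → W'.Δ ≠ 0 → AllFieldsRH → ∀ p₀ : ℕ, Differs W W' p₀ → ∀ l : ℕ, l.Prime → l ≠ p₀ →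
    (W.apOfModel p₀ : ZMod l) ≠ (W'.apOfModel p₀ : ZMod l) →
    ∃ p : ℕ, Differs W W' p ∧
      (p : ℝ) ≤ A * ((l : ℝ) ^ 6 * (1 + 7 * Real.log l + radSize W W')) ^ 2 := by
  obtain ⟨A, hA, hrep⟩ := exists_rep_prime
  refine ⟨A, hA, fun W W' _ _ hΔ hΔ' hGRH p₀ hp₀ l hl hlp hne => ?_⟩
  haveI : NeZero l := ⟨hl.ne_zero⟩
  haveI : Fact l.Prime := ⟨hl⟩
  obtain ⟨ρ, hρ⟩ : ∃ ρ : GQ →* PairGroup l, ρ = (glLevel W l).prod (glLevel W' l) := ⟨_, rfl⟩
  obtain ⟨π, hπ⟩ : ∃ π, π = QuotientGroup.mk' (scalarPair l).range := ⟨_, rfl⟩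
  obtain ⟨X, hX⟩ : ∃ X : Set (PairGroup l), X = {g | g.1.1.trace ≠ g.2.1.trace} := ⟨_, rfl⟩
  obtain ⟨S, hS⟩ : ∃ S, S = insert l (badPrimes W ∪ badPrimes W') := ⟨_, rfl⟩
  have hSl : ∀ p : ℕ, p.Prime → p ∉ S → ¬ p ∣ l ∧ p ∉ badPrimes W ∪ badPrimes W' ∧
      p ∉ badPrimes W ∧ p ∉ badPrimes W' := fun p hp hpS => by
    rw [hS, Finset.mem_insert, not_or] at hpS
    have h := hpS.2
    rw [mem_union, not_or] at h
    exact ⟨fun hd => hpS.1 ((Nat.prime_dvd_prime_iff_eq hp hl).1 hd), hpS.2, h.1, h.2⟩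
  have hfrob : ∀ p : ℕ, p.Prime → p ∉ S → ∀ B : ValuationSubring Qb, B.LiesOverPrime p →
      ∀ σ : GQ, B.IsFrobeniusAt σ p →
      ((W.apOfModel p : ZMod l) ≠ (W'.apOfModel p : ZMod l) ↔ ρ σ ∈ X) :=
      fun p hp hpS B hB σ hσ => by
    obtain ⟨hpl, -, hb, hb'⟩ := hSl p hp hpS
    rw [hX, hρ, Set.mem_ofPred_eq, ← (FA.TraceDist.repLevel_frobenius (W := W) (N := l) hp hpl
        (FA.CyclicRed.good_of_not_mem hΔ hp hb).2 hB hσ).1,
      ← (FA.TraceDist.repLevel_frobenius (W := W') (N := l) hp hpl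
        (FA.CyclicRed.good_of_not_mem hΔ' hp hb').2 hB hσ).1]
    exact Iff.rfl
  have hsat : ∀ a b : PairGroup l, π a = π b → b ∈ X → a ∈ X := fun a b hab hb => by
    rw [hπ, QuotientGroup.mk'_apply, QuotientGroup.mk'_apply, QuotientGroup.eq] at hab
    obtain ⟨c, hc⟩ := hab
    have ha : a = b * (scalarPair l c)⁻¹ := by rw [hc]; group
    rw [hX, Set.mem_ofPred_eq] at hb ⊢
    rw [ha, ← map_inv]
    simp only [scalarPair, MonoidHom.prod_apply, Prod.fst_mul, Prod.snd_mul, Units.val_mul,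
      Units.coe_map]
    intro h
    refine hb (mul_right_cancel₀ (b := ((c⁻¹ : (ZMod l)ˣ) : ZMod l)) (Units.ne_zero _) ?_)
    refine (trace_mul_scalar _ _).symm.trans (Eq.trans h (trace_mul_scalar _ _))
  have hopen : IsOpen (ρ.ker : Set GQ) := by
    rw [hρ, MonoidHom.ker_prod, Subgroup.coe_inf]
    exact FA.TraceDist.isOpen_ker_glLevel.inter FA.TraceDist.isOpen_ker_glLevel
  have hkle : ρ.ker ≤ (π.comp ρ).ker := fun σ hσ => by
    rw [MonoidHom.mem_ker] at hσ ⊢
    rw [MonoidHom.comp_apply, hσ, map_one]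
  have hp₀S : p₀ ∉ S := by
    rw [hS, Finset.mem_insert, not_or]
    exact ⟨hlp.symm, hp₀.2.1⟩
  obtain ⟨B₀, hB₀⟩ := FA.Deform.exists_liesOverPrime hp₀.1
  obtain ⟨σ₀, hσ₀⟩ := FA.Deform.exists_isFrobeniusAt hp₀.1 hB₀
  obtain ⟨p, hp, hpS, hle, hpX⟩ := hrep (π.comp ρ) (Subgroup.isOpen_mono hkle hopen) hGRH S
    (fun p hp => by
      rw [hS, Finset.mem_insert, mem_union] at hp
      rcases hp with rfl | hp | hp
      exacts [hl, FA.CyclicRed.prime_of_mem_badPrimes W hp,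
        FA.CyclicRed.prime_of_mem_badPrimes W' hp])
    (fun p hp hpS B hB => by
      obtain ⟨hpl, -, hb, hb'⟩ := hSl p hp hpS
      refine le_trans ?_ hkle
      rw [hρ, MonoidHom.ker_prod]
      exact le_inf (FA.CyclicRed.inertia_le_ker_glLevel W hp
          (FA.CyclicRed.good_of_not_mem hΔ hp hb).2 hpl hB)
        (FA.CyclicRed.inertia_le_ker_glLevel W' hp
          (FA.CyclicRed.good_of_not_mem hΔ' hp hb').2 hpl hB))
    (π '' X) (fun g hg x => by
      obtain ⟨a, ha, rfl⟩ := hg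
      obtain ⟨y, rfl⟩ := QuotientGroup.mk'_surjective (scalarPair l).range x
      refine ⟨y * a * y⁻¹, ?_, by rw [hπ, map_mul, map_mul, map_inv]⟩
      rw [hX, Set.mem_ofPred_eq] at ha ⊢
      simp only [Prod.fst_mul, Prod.snd_mul, Prod.fst_inv, Prod.snd_inv, Units.val_mul,
        trace_units_conj]
      exact ha)
    ⟨σ₀, ρ σ₀, (hfrob p₀ hp₀.1 hp₀S B₀ hB₀ σ₀ hσ₀).1 hne, rfl⟩
  obtain ⟨B, hB⟩ := FA.Deform.exists_liesOverPrime hp
  obtain ⟨σ, hσ⟩ := FA.Deform.exists_isFrobeniusAt hp hB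
  obtain ⟨b, hb, hbσ⟩ := hpX B hB σ hσ
  have hdiff := (hfrob p hp hpS B hB σ hσ).2 (hsat _ b hbσ.symm hb)
  refine ⟨p, ⟨hp, (hSl p hp hpS).2.1, fun e => hdiff (by rw [e])⟩, hle.trans ?_⟩
  obtain ⟨n, hn⟩ : ∃ n, n = Nat.card (π.comp ρ).range := ⟨_, rfl⟩
  rw [← hn, repScale]
  have hn6 : n ≤ l ^ 6 := by
    rw [hn]
    refine le_trans (Subgroup.card_le_of_le ?_) (natCard_map_ker_le hl)
    rintro _ ⟨σ, rfl⟩
    refine ⟨ρ σ, MonoidHom.mem_ker.2 ?_, by rw [hπ]; rfl⟩
    rw [detRatio, MonoidHom.div_apply, div_eq_one]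
    refine Units.ext ?_
    rw [hρ]
    exact ((FA.Independence.Family.det_repLevel (N := l) W σ).trans
      (FA.Independence.Family.det_repLevel (N := l) W' σ).symm :)
  have hnl : (n : ℝ) ≤ (l : ℝ) ^ 6 := by exact_mod_cast hn6
  have hn0 : 0 < n := hn ▸ Nat.card_pos
  have hlogn : Real.log n ≤ 6 * Real.log l := by
    refine (Real.log_le_log (Nat.cast_pos.2 hn0) hnl).trans (le_of_eq ?_)
    rw [Real.log_pow]
    norm_num
  have hT : ∑ q ∈ S, Real.log (q : ℝ) ≤ Real.log l + radSize W W' := by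
    have := sum_bad_union_le hΔ hΔ'
    rw [hS]
    by_cases h : l ∈ badPrimes W ∪ badPrimes W'
    · rw [insert_eq_of_mem h]
      linarith [Real.log_natCast_nonneg l]
    · rw [sum_insert h]
      linarith
  have h0 : 0 ≤ (n : ℝ) * (1 + Real.log n + ∑ q ∈ S, Real.log (q : ℝ)) :=
    mul_nonneg (Nat.cast_nonneg n) (by
      linarith [Real.log_natCast_nonneg n,
        sum_nonneg (s := S) (f := fun q : ℕ => Real.log q) fun q _ => Real.log_natCast_nonneg q])
  refine mul_le_mul_of_nonneg_left (pow_le_pow_left₀ h0 (mul_le_mul hnl (by linarith) ?_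
    (by positivity)) 2) hA.le
  linarith [Real.log_natCast_nonneg n,
    sum_nonneg (s := S) (f := fun q : ℕ => Real.log q) fun q _ => Real.log_natCast_nonneg q]

end FA.SharpIsogeny

end
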