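import Fermat.Agent.SharpChebotarev.Progression
import Fermat.Agent.CyclicReductions.Frobenius

/-!
# The least prime of a Frobenius class of a representation

A homomorphism `ρ` of `Gal(ℚ̄/ℚ)` to a finite group, with open kernel and unramified outside `S`,
has a field with `log (2 |d|) ≤ R = n (1 + log n + ∑_{p ∈ S} log p)`, `n` the order of the image. So
on the Riemann hypothesis every class that meets the image has a Frobenius element at a prime
`p ∉ S` with `p ≤ A R ²`.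
-/

set_option autoImplicit false
set_option linter.style.haveILetI false

noncomputable section

open NumberField Module Finset
open FA.DedekindExplicit (discScale)
open FA.CyclicRed (AllFieldsRH)
open scoped Classical Pointwise

local notation "Qb" => AlgebraicClosure ℚ
local notation "GQ" => AlgebraicClosure ℚ ≃ₐ[ℚ] AlgebraicClosure ℚ

namespace FA.SharpIsogeny

/-- `n (1 + log n + T)`. -/
def repScale (n : ℕ) (T : ℝ) : ℝ := n * (1 + Real.log n + T)

/-- **A small prime with Frobenius in a class that meets the image.** -/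
theorem exists_rep_prime : ∃ A : ℝ, 0 < A ∧
    ∀ {G : Type} [Group G] [Finite G] (ρ : GQ →* G), IsOpen (ρ.ker : Set GQ) → AllFieldsRH →
    ∀ S : Finset ℕ, (∀ p ∈ S, p.Prime) →
    (∀ p : ℕ, p.Prime → p ∉ S → ∀ B : ValuationSubring Qb, B.LiesOverPrime p →
      B.inertiaSubgroupIn ℚ ≤ ρ.ker) →
    ∀ X : Set G, (∀ g ∈ X, ∀ x, x * g * x⁻¹ ∈ X) → (∃ σ, ρ σ ∈ X) →
    ∃ p : ℕ, p.Prime ∧ p ∉ S ∧
      (p : ℝ) ≤ A * repScale (Nat.card ρ.range) (∑ q ∈ S, Real.log (q : ℝ)) ^ 2 ∧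
      ∀ B : ValuationSubring Qb, B.LiesOverPrime p → ∀ σ : GQ, B.IsFrobeniusAt σ p → ρ σ ∈ X := by
  obtain ⟨A, hA, hmain⟩ := FA.SharpCheb.exists_rat_prime_sharp.{0}
  refine ⟨A, hA, fun {G} _ _ ρ hopen hGRH S hS hun X hX hne => ?_⟩
  let F : IntermediateField ℚ Qb := IntermediateField.fixedField ρ.ker
  have hFN : F.fixingSubgroup = ρ.ker :=
    InfiniteGalois.fixingSubgroup_fixedField ⟨ρ.ker, Subgroup.isClosed_of_isOpen _ hopen⟩
  have hFnorm : F.fixingSubgroup.Normal := hFN.symm ▸ MonoidHom.normal_ker ρ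
  have hFgal : IsGalois ℚ F := (InfiniteGalois.normal_iff_isGalois F).mp hFnorm
  haveI : FiniteDimensional ℚ F :=
    (InfiniteGalois.isOpen_iff_finite F).mp (by rw [hFN]; exact hopen)
  haveI : NumberField F := { }
  let res : GQ →* (F ≃ₐ[ℚ] F) := AlgEquiv.restrictNormalHom F
  have hres : res.ker = ρ.rangeRestrict.ker :=
    ((IntermediateField.restrictNormalHom_ker F).trans hFN).trans ρ.ker_rangeRestrict.symm
  have hres_surj : Function.Surjective res :=
    AlgEquiv.restrictNormalHom_surjective (F := ℚ) (K₁ := F) Qb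
  let φ : (F ≃ₐ[ℚ] F) →* ρ.range := res.liftOfSurjective hres_surj ⟨ρ.rangeRestrict, hres.le⟩
  have hφ : ∀ g : GQ, φ (res g) = ρ.rangeRestrict g :=
    MonoidHom.liftOfRightInverse_comp_apply _ _ _ ⟨ρ.rangeRestrict, hres.le⟩
  have hφb : Function.Bijective φ := by
    refine ⟨(injective_iff_map_eq_one φ).mpr fun z hz => ?_, fun r => ?_⟩
    · obtain ⟨g, rfl⟩ := hres_surj z
      rw [hφ] at hz
      rw [← MonoidHom.mem_ker, hres]
      exact hz
    · obtain ⟨g, hg⟩ := ρ.rangeRestrict_surjective r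
      exact ⟨res g, (hφ g).trans hg⟩
  obtain ⟨C, hC⟩ : ∃ C : Set (F ≃ₐ[ℚ] F), C = {g | (φ g : G) ∈ X} := ⟨_, rfl⟩
  have hCconj : ∀ g ∈ C, ∀ x, x * g * x⁻¹ ∈ C := by
    rw [hC]
    intro g hg x
    show (φ (x * g * x⁻¹) : G) ∈ X
    rw [map_mul, map_mul, map_inv, Subgroup.coe_mul, Subgroup.coe_mul, Subgroup.coe_inv]
    exact hX _ hg _
  have hCne : C.Nonempty := by
    obtain ⟨σ, hσ⟩ := hne
    refine ⟨res σ, ?_⟩
    rw [hC, Set.mem_ofPred_eq, hφ]
    exact hσ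
  have hfin : finrank ℚ F = Nat.card ρ.range :=
    (IsGalois.card_aut_eq_finrank ℚ F).symm.trans (Nat.card_congr (Equiv.ofBijective φ hφb))
  have hfix : ∀ q : ℕ, q.Prime → q ∉ S → ∀ B : ValuationSubring Qb, B.LiesOverPrime q →
      B.inertiaSubgroupIn ℚ ≤ F.fixingSubgroup := fun q hq hqS B hB => hFN ▸ hun q hq hqS B hB
  have hdiscr := FA.Faltings.natAbs_discr_le (K := F) hS fun q Q _ hq hqS hqQ =>
    FA.Faltings.isUnramifiedAt_of_inertia_le F hq (hfix q hq hqS) Q hqQ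
  obtain ⟨n, hn⟩ : ∃ n, n = Nat.card ρ.range := ⟨_, rfl⟩
  rw [hfin, ← hn] at hdiscr
  rw [← hn]
  have hn1 : (1 : ℝ) ≤ n := hn ▸ Nat.one_le_cast.2 Nat.card_pos
  have hm : (∏ p ∈ S, p) ≠ 0 := prod_ne_zero_iff.2 fun p hp => (hS p hp).ne_zero
  have hlogm : Real.log ((∏ p ∈ S, p : ℕ) : ℝ) = ∑ p ∈ S, Real.log (p : ℝ) := by
    rw [Nat.cast_prod, Real.log_prod fun p hp => Nat.cast_ne_zero.2 (hS p hp).ne_zero]
  obtain ⟨T, hT⟩ : ∃ T, T = ∑ p ∈ S, Real.log (p : ℝ) := ⟨_, rfl⟩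
  rw [← hT] at hlogm ⊢
  have hT0 : 0 ≤ T := hT ▸ sum_nonneg fun p _ => Real.log_natCast_nonneg p
  have hln : 0 ≤ Real.log n := Real.log_natCast_nonneg n
  have hscale : discScale F ≤ repScale n T := by
    have h1 : Real.log (((discr F).natAbs : ℕ) : ℝ) ≤ n * (Real.log n + T) := by
      refine (Real.log_le_log (Nat.cast_pos.2 (Int.natAbs_pos.2 (discr_ne_zero _)))
        (Nat.cast_le.2 hdiscr)).trans (le_of_eq ?_)
      rw [Nat.cast_pow, Real.log_pow, Nat.cast_mul, Real.log_mul (by linarith)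
        (Nat.cast_ne_zero.2 hm), hlogm]
    rw [FA.DedekindExplicit.discScale_eq, FA.DedekindZeroCount.discLog, repScale, add_assoc,
      mul_add, mul_one]
    linarith [Real.log_two_lt_d9]
  have hmR : Real.log ((∏ p ∈ S, p : ℕ) : ℝ) ≤ repScale n T := by
    rw [hlogm, repScale]
    have := mul_le_mul_of_nonneg_right hn1 (show 0 ≤ 1 + Real.log n + T by linarith)
    linarith
  obtain ⟨p, hp, -, hpm, hle, Q, hQ, hpQ, τ, hτC, hτ⟩ :=
    hmain (hGRH F) C hCconj hCne _ _ hscale hm hmR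
  have hpS : p ∉ S := fun h => hpm (dvd_prod_of_mem _ h)
  refine ⟨p, hp, hpS, hle, fun B hB σ hσ => ?_⟩
  obtain ⟨P, hP⟩ := FA.Chebotarev.exists_isFrobPair_restrict (F := F) hp
    (fun Q' hQ' hpQ' τ' hτ' => by
      haveI := hQ'
      obtain ⟨B', hB', σ', hσ', hστ⟩ := FA.Ext.exists_inertia_lift F Q' hp hpQ' τ' hτ'
      refine AlgEquiv.ext fun y => Subtype.ext ?_
      rw [← hστ y]
      exact hfix p hp hpS B' hB' hσ' y) hB hσ
  obtain ⟨x, hx⟩ := isConj_iff.1 (FA.Chebotarev.isConj_of_isFrobPair hP hQ hpQ hτ).symm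
  have h1 : res σ ∈ C := by
    show σ.restrictNormal F ∈ C
    rw [← hx]
    exact hCconj _ hτC _
  rw [hC, Set.mem_ofPred_eq, hφ] at h1
  exact h1

end FA.SharpIsogeny

end
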